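import Fermat.Agent.ThetaAGM.Constants
import Mathlib.Analysis.SpecialFunctions.ArithmeticGeometricMean
import Mathlib.Topology.Order.IntermediateValue

/-!
# Gauss: the arithmetic-geometric mean of `θ₃²` and `θ₄²` is `1`
-/

set_option autoImplicit false

noncomputable section

open Filter Topology Set
open scoped Real NNReal

namespace FA.ThetaAGM

theorem tendsto_bound :
    Tendsto (fun t : ℝ => 2 / (1 - Real.exp (-π * t)) * Real.exp (-π * t)) atTop (𝓝 0) := by
  have h : Tendsto (fun t : ℝ => Real.exp (-π * t)) atTop (𝓝 0) :=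
    Real.tendsto_exp_atBot.comp (tendsto_id.const_mul_atTop_of_neg (neg_neg_of_pos Real.pi_pos))
  have h2 : Tendsto (fun t : ℝ => 2 / (1 - Real.exp (-π * t))) atTop (𝓝 (2 / (1 - 0))) :=
    tendsto_const_nhds.div (tendsto_const_nhds.sub h) (by norm_num)
  simpa using h2.mul h

theorem tendsto_thetaThree : Tendsto thetaThree atTop (𝓝 1) := by
  rw [← tendsto_sub_nhds_zero_iff]
  refine squeeze_zero_norm' ?_ tendsto_bound
  filter_upwards [eventually_gt_atTop (0 : ℝ)] with t ht
  have h := norm_jacobiTheta_sub_one_le (τ := (t : ℂ) * Complex.I) (by simpa using ht)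
  rw [← thetaThree_eq, ← Complex.ofReal_one, ← Complex.ofReal_sub, Complex.norm_real] at h
  simpa using h

theorem tendsto_thetaFour : Tendsto thetaFour atTop (𝓝 1) := by
  rw [← tendsto_sub_nhds_zero_iff]
  refine squeeze_zero_norm' ?_ tendsto_bound
  filter_upwards [eventually_gt_atTop (0 : ℝ)] with t ht
  have h := norm_jacobiTheta_sub_one_le (τ := (t : ℂ) * Complex.I + 1) (by simpa using ht)
  rw [← thetaFour_eq, ← Complex.ofReal_one, ← Complex.ofReal_sub, Complex.norm_real] at h
  simpa using h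

theorem tendsto_two_pow {t : ℝ} (ht : 0 < t) :
    Tendsto (fun n : ℕ => 2 ^ n * t) atTop atTop :=
  (tendsto_pow_atTop_atTop_of_one_lt one_lt_two).atTop_mul_const ht

theorem thetaFour_pos {t : ℝ} (ht : 0 < t) : 0 < thetaFour t := by
  obtain ⟨N, hN⟩ := eventually_atTop.mp ((tendsto_thetaFour.comp (tendsto_two_pow ht)).eventually
    (lt_mem_nhds one_pos))
  suffices ∀ k ≤ N, 0 < thetaFour (2 ^ (N - k) * t) by simpa using this N le_rfl
  intro k
  induction k with
  | zero => exact fun _ => hN N le_rfl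
  | succ k ih =>
    intro hk
    have h := ih (by omega)
    rw [show N - k = N - (k + 1) + 1 by omega, pow_succ', mul_assoc] at h
    have h0 : 0 < 2 ^ (N - (k + 1)) * t := by positivity
    refine pos_of_mul_pos_right ?_ (thetaThree_pos h0).le
    rw [mul_eq_sq h0]
    positivity

theorem thetaFour_lt_thetaThree {t : ℝ} (ht : 0 < t) : thetaFour t < thetaThree t := by
  refine lt_of_pow_lt_pow_left₀ 2 (thetaThree_pos ht).le ?_
  have := sq_sub_sq ht
  have := pow_pos (thetaTwo_pos (mul_pos two_pos ht)) 2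
  linarith

theorem sq_thetaTwo_eq {t : ℝ} (ht : 0 < t) :
    thetaTwo t ^ 2 = thetaThree (t / 2) ^ 2 - thetaThree t ^ 2 := by
  have h1 := sq_add_sq (half_pos ht)
  have h2 := sq_sub_sq (half_pos ht)
  rw [mul_div_cancel₀ t two_ne_zero] at h1 h2
  linarith

/-- The inversion exchanges `θ₂` and `θ₄`. -/
theorem sq_thetaFour_inv {t : ℝ} (ht : 0 < t) :
    thetaFour t⁻¹ ^ 2 = t * thetaTwo t ^ 2 := by
  have h := sq_add_sq (inv_pos.mpr ht)
  have h1 := sq_thetaThree_inv ht
  have h2 := sq_thetaThree_inv (half_pos ht)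
  rw [inv_div, div_eq_mul_inv] at h2
  rw [sq_thetaTwo_eq ht]
  linear_combination h - h1 + 2 * h2

/-- **Gauss**: `agm(θ₃², θ₄²) = 1`. -/
theorem agm_thetaThree_thetaFour {t : ℝ} (ht : 0 < t) :
    (NNReal.agm (thetaThree t ^ 2).toNNReal (thetaFour t ^ 2).toNNReal : ℝ) = 1 := by
  let A : ℝ → ℝ≥0 := fun s => (thetaThree s ^ 2).toNNReal
  let B : ℝ → ℝ≥0 := fun s => (thetaFour s ^ 2).toNNReal
  have step : ∀ s : ℝ, 0 < s → NNReal.agm (A s) (B s) = NNReal.agm (A (2 * s)) (B (2 * s)) := by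
    intro s hs
    rw [NNReal.agm_eq_agm_gm_am, NNReal.agm_comm]
    congr 1
    · rw [← NNReal.coe_inj]
      push_cast
      rw [Real.coe_toNNReal _ (sq_nonneg _), Real.coe_toNNReal _ (sq_nonneg _),
        Real.coe_toNNReal _ (sq_nonneg _)]
      linarith [sq_add_sq hs]
    · rw [← NNReal.coe_inj, Real.coe_sqrt]
      push_cast
      rw [Real.coe_toNNReal _ (sq_nonneg _), Real.coe_toNNReal _ (sq_nonneg _),
        Real.coe_toNNReal _ (sq_nonneg _), ← mul_pow,
        Real.sqrt_sq (mul_pos (thetaThree_pos hs) (thetaFour_pos hs)).le, mul_eq_sq hs]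
  have hn : ∀ n : ℕ, NNReal.agm (A t) (B t) = NNReal.agm (A (2 ^ n * t)) (B (2 ^ n * t)) := by
    intro n
    induction n with
    | zero => simp
    | succ n ih =>
      rw [ih, step _ (by positivity), pow_succ', mul_assoc]
  have hA : Tendsto (fun n : ℕ => A (2 ^ n * t)) atTop (𝓝 1) := by
    simpa using tendsto_real_toNNReal ((tendsto_thetaThree.comp (tendsto_two_pow ht)).pow 2)
  have hB : Tendsto (fun n : ℕ => B (2 ^ n * t)) atTop (𝓝 1) := by
    simpa using tendsto_real_toNNReal ((tendsto_thetaFour.comp (tendsto_two_pow ht)).pow 2)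
  have h1 : NNReal.agm (A t) (B t) = 1 := le_antisymm
    (ge_of_tendsto' (by simpa using hA.max hB) fun n => (hn n).trans_le NNReal.agm_le_max)
    (le_of_tendsto' (by simpa using hA.min hB) fun n => NNReal.min_le_agm.trans (hn n).ge)
  exact congrArg NNReal.toReal h1

/-- `agm(θ₃², θ₂²) = 1 / t`. -/
theorem agm_thetaThree_thetaTwo {t : ℝ} (ht : 0 < t) :
    (NNReal.agm (thetaThree t ^ 2).toNNReal (thetaTwo t ^ 2).toNNReal : ℝ) = t⁻¹ := by
  have h := agm_thetaThree_thetaFour (inv_pos.mpr ht)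
  rw [sq_thetaThree_inv ht, sq_thetaFour_inv ht, Real.toNNReal_mul ht.le, Real.toNNReal_mul ht.le,
    NNReal.agm_mul_distrib, NNReal.coe_mul, Real.coe_toNNReal _ ht.le] at h
  field_simp at h ⊢
  linear_combination h

theorem continuousAt_thetaThree {t : ℝ} (ht : 0 < t) : ContinuousAt thetaThree t := by
  have h : ContinuousAt (fun s : ℝ => (jacobiTheta ((s : ℂ) * Complex.I)).re) t :=
    Complex.continuous_re.continuousAt.comp ((continuousAt_jacobiTheta (by simpa using ht)).comp
      (by fun_prop))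
  exact h.congr (Eventually.of_forall fun s => by simp [← thetaThree_eq])

theorem continuousAt_thetaFour {t : ℝ} (ht : 0 < t) : ContinuousAt thetaFour t := by
  have h : ContinuousAt (fun s : ℝ => (jacobiTheta ((s : ℂ) * Complex.I + 1)).re) t :=
    Complex.continuous_re.continuousAt.comp ((continuousAt_jacobiTheta (by simpa using ht)).comp
      (by fun_prop))
  exact h.congr (Eventually.of_forall fun s => by simp [← thetaFour_eq])

/-- `θ₄² / θ₃²` takes every value in `(0, 1)`. -/
theorem exists_param {x : ℝ} (hx0 : 0 < x) (hx1 : x < 1) :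
    ∃ t : ℝ, 0 < t ∧ thetaFour t ^ 2 = x * thetaThree t ^ 2 := by
  set g : ℝ → ℝ := fun t => thetaFour t ^ 2 / thetaThree t ^ 2 with hg
  have htop : Tendsto g atTop (𝓝 1) := by
    have h := (tendsto_thetaFour.pow 2).div (tendsto_thetaThree.pow 2) (by norm_num)
    rw [one_pow, div_one] at h
    exact h
  have hzero : Tendsto (fun t => g t⁻¹) atTop (𝓝 0) := by
    have h2 : Tendsto (fun t : ℝ => (thetaThree (t / 2) ^ 2 - thetaThree t ^ 2) / thetaThree t ^ 2)
        atTop (𝓝 0) := by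
      have h := (((tendsto_thetaThree.comp (tendsto_id.atTop_div_const two_pos)).pow 2).sub
        (tendsto_thetaThree.pow 2)).div (tendsto_thetaThree.pow 2) (by norm_num)
      rw [sub_self, zero_div] at h
      exact h
    refine h2.congr' ?_
    filter_upwards [eventually_gt_atTop (0 : ℝ)] with t ht
    simp only [hg]
    rw [sq_thetaFour_inv ht, sq_thetaThree_inv ht, ← sq_thetaTwo_eq ht,
      mul_div_mul_left _ _ ht.ne']
  obtain ⟨T, hT, hT0⟩ := ((htop.eventually (lt_mem_nhds hx1)).and (eventually_gt_atTop 0)).exists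
  obtain ⟨S, hS, hS0⟩ :=
    ((hzero.eventually (gt_mem_nhds hx0)).and (eventually_gt_atTop 0)).exists
  have hc : ContinuousOn g (Ioi 0) := fun t (ht : 0 < t) =>
    (((continuousAt_thetaFour ht).pow 2).div ((continuousAt_thetaThree ht).pow 2)
      (pow_ne_zero 2 (thetaThree_pos ht).ne')).continuousWithinAt
  obtain ⟨t, ht, he⟩ := isPreconnected_Ioi.intermediate_value (a := S⁻¹) (inv_pos.mpr hS0)
    (mem_Ioi.mpr hT0) hc ⟨hS.le, hT.le⟩
  exact ⟨t, ht, (div_eq_iff (pow_ne_zero 2 (thetaThree_pos ht).ne')).mp he⟩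

/-- **Gauss's inversion.** -/
theorem param_unique {a b t : ℝ} (ha : 0 < a) (ht : 0 < t)
    (h : thetaFour t ^ 2 / thetaThree t ^ 2 = b / a) :
    (NNReal.agm a.toNNReal b.toNNReal : ℝ) = a / thetaThree t ^ 2 ∧
      t = (NNReal.agm a.toNNReal b.toNNReal : ℝ) /
        (NNReal.agm a.toNNReal (√(a ^ 2 - b ^ 2)).toNNReal : ℝ) := by
  have h3 := pow_pos (thetaThree_pos ht) 2
  set lam := a / thetaThree t ^ 2 with hlam
  have hl : 0 < lam := div_pos ha h3
  have ea : a = lam * thetaThree t ^ 2 := (div_mul_cancel₀ a h3.ne').symm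
  have eb : b = lam * thetaFour t ^ 2 := by
    rw [div_eq_div_iff h3.ne' ha.ne'] at h
    rw [hlam, div_mul_eq_mul_div, eq_div_iff h3.ne']
    linear_combination -h
  have ec : √(a ^ 2 - b ^ 2) = lam * thetaTwo t ^ 2 := by
    rw [← Real.sqrt_sq (mul_nonneg hl.le (sq_nonneg (thetaTwo t)))]
    congr 1
    rw [ea, eb]
    linear_combination (-lam ^ 2) * quartic ht
  have h1 : (NNReal.agm a.toNNReal b.toNNReal : ℝ) = lam := by
    rw [ea, eb, Real.toNNReal_mul hl.le, Real.toNNReal_mul hl.le, NNReal.agm_mul_distrib,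
      NNReal.coe_mul, agm_thetaThree_thetaFour ht, Real.coe_toNNReal _ hl.le, mul_one]
  refine ⟨h1, ?_⟩
  rw [h1, ec]
  nth_rewrite 1 [ea]
  rw [Real.toNNReal_mul hl.le, Real.toNNReal_mul hl.le, NNReal.agm_mul_distrib, NNReal.coe_mul,
    agm_thetaThree_thetaTwo ht, Real.coe_toNNReal _ hl.le]
  field_simp

end FA.ThetaAGM

end
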