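import Mathlib.NumberTheory.ModularForms.JacobiTheta.OneVariable
import Mathlib.Topology.Algebra.InfiniteSum.Ring
import Mathlib.Analysis.Normed.Ring.InfiniteSum

/-!
# Theta constants on the imaginary axis

The three theta constants as real series in `t > 0`, their duplication formulae and Jacobi's
quartic identity, all from regrouping double sums by parity.
-/

set_option autoImplicit false

noncomputable section

open Filter Topology
open scoped Real

namespace FA.ThetaAGM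

/-- `θ₃(i t)`. -/
def thetaThree (t : ℝ) : ℝ := ∑' n : ℤ, Real.exp (-π * t * (n : ℝ) ^ 2)

/-- `θ₄(i t)`. -/
def thetaFour (t : ℝ) : ℝ := ∑' n : ℤ, (-1 : ℝ) ^ n * Real.exp (-π * t * (n : ℝ) ^ 2)

/-- `θ₂(i t)`. -/
def thetaTwo (t : ℝ) : ℝ := ∑' n : ℤ, Real.exp (-π * t * ((n : ℝ) + 1 / 2) ^ 2)

theorem summable_three {t : ℝ} (ht : 0 < t) :
    Summable fun n : ℤ => ‖Real.exp (-π * t * (n : ℝ) ^ 2)‖ := by
  refine (summable_pow_mul_jacobiTheta₂_term_bound 0 ht 0).congr fun n => ?_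
  rw [pow_zero, one_mul, Real.norm_of_nonneg (Real.exp_pos _).le]
  congr 1
  ring

theorem summable_four {t : ℝ} (ht : 0 < t) :
    Summable fun n : ℤ => ‖(-1 : ℝ) ^ n * Real.exp (-π * t * (n : ℝ) ^ 2)‖ := by
  refine (summable_three ht).congr fun n => ?_
  rw [norm_mul, norm_zpow, norm_neg, norm_one, one_zpow, one_mul]

theorem summable_two {t : ℝ} (ht : 0 < t) :
    Summable fun n : ℤ => ‖Real.exp (-π * t * ((n : ℝ) + 1 / 2) ^ 2)‖ := by
  refine Summable.of_nonneg_of_le (fun n => norm_nonneg _) (fun n => ?_)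
    (summable_pow_mul_jacobiTheta₂_term_bound (t / 2) ht 0)
  rw [Real.norm_of_nonneg (Real.exp_pos _).le, pow_zero, one_mul, Int.cast_abs]
  refine Real.exp_le_exp.mpr ?_
  have h := mul_nonneg (mul_pos Real.pi_pos ht).le
    (show (0 : ℝ) ≤ n + |(n : ℝ)| + 1 / 4 by linarith [neg_abs_le (n : ℝ)])
  nlinarith

theorem one_le_thetaThree {t : ℝ} (ht : 0 < t) : 1 ≤ thetaThree t := by
  refine le_of_eq_of_le ?_
    ((summable_three ht).of_norm.le_tsum 0 fun n _ => (Real.exp_pos _).le)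
  simp

theorem thetaThree_pos {t : ℝ} (ht : 0 < t) : 0 < thetaThree t :=
  one_pos.trans_le (one_le_thetaThree ht)

theorem thetaTwo_pos {t : ℝ} (ht : 0 < t) : 0 < thetaTwo t :=
  (summable_two ht).of_norm.tsum_pos (fun _ => (Real.exp_pos _).le) 0 (Real.exp_pos _)

/-- A sum over pairs supported where `m + n` is even. -/
theorem tsum_even_pairs {F G : ℤ × ℤ → ℝ} (h0 : ∀ m n : ℤ, Odd (m + n) → F (m, n) = 0)
    (h : ∀ a b : ℤ, F (a + b, a - b) = G (a, b)) : ∑' p, F p = ∑' p, G p := by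
  have hinj : Function.Injective fun p : ℤ × ℤ => (p.1 + p.2, p.1 - p.2) := fun p q hpq => by
    simp only [Prod.mk.injEq] at hpq
    exact Prod.ext (by omega) (by omega)
  rw [← hinj.tsum_eq fun p hp => ?_]
  · exact tsum_congr fun p => h p.1 p.2
  · obtain ⟨k, hk⟩ : Even (p.1 + p.2) :=
      (Int.even_or_odd _).resolve_right fun ho => hp (h0 p.1 p.2 ho)
    exact ⟨(k, p.1 - k), Prod.ext (by dsimp only; omega) (by dsimp only; omega)⟩

/-- A sum over pairs supported where `m + n` is odd. -/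
theorem tsum_odd_pairs {F G : ℤ × ℤ → ℝ} (h0 : ∀ m n : ℤ, Even (m + n) → F (m, n) = 0)
    (h : ∀ a b : ℤ, F (a + b + 1, a - b) = G (a, b)) : ∑' p, F p = ∑' p, G p := by
  have hinj : Function.Injective fun p : ℤ × ℤ => (p.1 + p.2 + 1, p.1 - p.2) :=
    fun p q hpq => by
      simp only [Prod.mk.injEq] at hpq
      exact Prod.ext (by omega) (by omega)
  rw [← hinj.tsum_eq fun p hp => ?_]
  · exact tsum_congr fun p => h p.1 p.2
  · obtain ⟨k, hk⟩ : Odd (p.1 + p.2) :=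
      (Int.even_or_odd _).resolve_left fun he => hp (h0 p.1 p.2 he)
    exact ⟨(k, p.1 - k - 1), Prod.ext (by dsimp only; omega) (by dsimp only; omega)⟩

theorem neg_one_zpow_odd {m n : ℤ} (h : Odd (m + n)) : (-1 : ℝ) ^ m + (-1 : ℝ) ^ n = 0 := by
  rcases Int.even_or_odd m with hm | hm
  · have hn : Odd n := by simpa using h.sub_even hm
    rw [hm.neg_one_zpow, hn.neg_one_zpow, add_neg_cancel]
  · have hn : Even n := by simpa using h.sub_odd hm
    rw [hm.neg_one_zpow, hn.neg_one_zpow, neg_add_cancel]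

theorem exp_pair {t : ℝ} (x y : ℝ) :
    Real.exp (-π * t * x ^ 2) * Real.exp (-π * t * y ^ 2) =
      Real.exp (-π * t * (x ^ 2 + y ^ 2)) := by
  rw [← Real.exp_add]; ring_nf

theorem sq_thetaThree {t : ℝ} (ht : 0 < t) :
    thetaThree t ^ 2 = ∑' p : ℤ × ℤ, Real.exp (-π * t * ((p.1 : ℝ) ^ 2 + (p.2 : ℝ) ^ 2)) := by
  rw [sq, thetaThree, tsum_mul_tsum_of_summable_norm (summable_three ht) (summable_three ht)]
  exact tsum_congr fun p => exp_pair _ _

theorem sq_thetaFour {t : ℝ} (ht : 0 < t) :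
    thetaFour t ^ 2 = ∑' p : ℤ × ℤ,
      (-1 : ℝ) ^ (p.1 + p.2) * Real.exp (-π * t * ((p.1 : ℝ) ^ 2 + (p.2 : ℝ) ^ 2)) := by
  rw [sq, thetaFour, tsum_mul_tsum_of_summable_norm (summable_four ht) (summable_four ht)]
  refine tsum_congr fun p => ?_
  rw [zpow_add₀ (by norm_num), ← exp_pair]
  ring

theorem sq_thetaTwo {t : ℝ} (ht : 0 < t) :
    thetaTwo t ^ 2 = ∑' p : ℤ × ℤ,
      Real.exp (-π * t * (((p.1 : ℝ) + 1 / 2) ^ 2 + ((p.2 : ℝ) + 1 / 2) ^ 2)) := by
  rw [sq, thetaTwo, tsum_mul_tsum_of_summable_norm (summable_two ht) (summable_two ht)]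
  exact tsum_congr fun p => exp_pair _ _

theorem summable_pairs {t : ℝ} (ht : 0 < t) :
    Summable fun p : ℤ × ℤ => Real.exp (-π * t * ((p.1 : ℝ) ^ 2 + (p.2 : ℝ) ^ 2)) :=
  (summable_mul_of_summable_norm (summable_three ht) (summable_three ht)).congr
    fun _ => exp_pair _ _

theorem summable_pairs_alt {t : ℝ} (ht : 0 < t) :
    Summable fun p : ℤ × ℤ =>
      (-1 : ℝ) ^ (p.1 + p.2) * Real.exp (-π * t * ((p.1 : ℝ) ^ 2 + (p.2 : ℝ) ^ 2)) :=
  (summable_mul_of_summable_norm (summable_four ht) (summable_four ht)).congr fun p => by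
    rw [zpow_add₀ (by norm_num), ← exp_pair]; ring

/-- `θ₃² + θ₄² = 2 θ₃(2τ)²`. -/
theorem sq_add_sq {t : ℝ} (ht : 0 < t) :
    thetaThree t ^ 2 + thetaFour t ^ 2 = 2 * thetaThree (2 * t) ^ 2 := by
  rw [sq_thetaThree ht, sq_thetaFour ht, sq_thetaThree (by positivity),
    ← (summable_pairs ht).tsum_add (summable_pairs_alt ht), ← tsum_mul_left]
  refine tsum_even_pairs (fun m n ho => ?_) fun a b => ?_
  · rw [ho.neg_one_zpow]; ring
  · rw [(show Even (a + b + (a - b)) from ⟨a, by ring⟩).neg_one_zpow]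
    push_cast
    ring_nf

/-- `θ₃² - θ₄² = 2 θ₂(2τ)²`. -/
theorem sq_sub_sq {t : ℝ} (ht : 0 < t) :
    thetaThree t ^ 2 - thetaFour t ^ 2 = 2 * thetaTwo (2 * t) ^ 2 := by
  rw [sq_thetaThree ht, sq_thetaFour ht, sq_thetaTwo (by positivity),
    ← (summable_pairs ht).tsum_sub (summable_pairs_alt ht), ← tsum_mul_left]
  refine tsum_odd_pairs (fun m n he => ?_) fun a b => ?_
  · rw [he.neg_one_zpow]; ring
  · rw [(show Odd (a + b + 1 + (a - b)) from ⟨a, by ring⟩).neg_one_zpow]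
    push_cast
    ring_nf

/-- `θ₃ θ₄ = θ₄(2τ)²`. -/
theorem mul_eq_sq {t : ℝ} (ht : 0 < t) :
    thetaThree t * thetaFour t = thetaFour (2 * t) ^ 2 := by
  have h1 : thetaThree t * thetaFour t = ∑' p : ℤ × ℤ,
      (-1 : ℝ) ^ p.2 * Real.exp (-π * t * ((p.1 : ℝ) ^ 2 + (p.2 : ℝ) ^ 2)) := by
    rw [thetaThree, thetaFour,
      tsum_mul_tsum_of_summable_norm (summable_three ht) (summable_four ht)]
    refine tsum_congr fun p => ?_
    rw [← exp_pair]; ring
  have h2 : thetaThree t * thetaFour t = ∑' p : ℤ × ℤ,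
      (-1 : ℝ) ^ p.1 * Real.exp (-π * t * ((p.1 : ℝ) ^ 2 + (p.2 : ℝ) ^ 2)) := by
    rw [mul_comm, thetaThree, thetaFour,
      tsum_mul_tsum_of_summable_norm (summable_four ht) (summable_three ht)]
    refine tsum_congr fun p => ?_
    rw [← exp_pair]; ring
  have s1 : Summable fun p : ℤ × ℤ =>
      (-1 : ℝ) ^ p.2 * Real.exp (-π * t * ((p.1 : ℝ) ^ 2 + (p.2 : ℝ) ^ 2)) :=
    (summable_mul_of_summable_norm (summable_three ht) (summable_four ht)).congr fun p => by
      rw [← exp_pair]; ring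
  have s2 : Summable fun p : ℤ × ℤ =>
      (-1 : ℝ) ^ p.1 * Real.exp (-π * t * ((p.1 : ℝ) ^ 2 + (p.2 : ℝ) ^ 2)) :=
    (summable_mul_of_summable_norm (summable_four ht) (summable_three ht)).congr fun p => by
      rw [← exp_pair]; ring
  refine mul_left_cancel₀ (two_ne_zero (α := ℝ)) ?_
  rw [two_mul (thetaThree t * thetaFour t)]
  nth_rewrite 1 [h1]
  rw [h2, sq_thetaFour (by positivity), ← s1.tsum_add s2, ← tsum_mul_left]
  refine tsum_even_pairs (fun m n ho => ?_) fun a b => ?_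
  · rw [← add_mul, add_comm, neg_one_zpow_odd ho, zero_mul]
  · have e : (-1 : ℝ) ^ (a - b) = (-1 : ℝ) ^ (a + b) := by
      rw [show a + b = a - b + (b + b) by ring, zpow_add₀ (by norm_num),
        (Even.add_self b).neg_one_zpow, mul_one]
    rw [e]
    push_cast
    ring_nf

/-- **Jacobi's quartic identity.** -/
theorem quartic {t : ℝ} (ht : 0 < t) :
    thetaTwo t ^ 4 + thetaFour t ^ 4 = thetaThree t ^ 4 := by
  have h : 0 < t / 2 := half_pos ht
  have h1 := sq_add_sq h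
  have h2 := sq_sub_sq h
  have h3 := mul_eq_sq h
  rw [mul_div_cancel₀ t two_ne_zero] at h1 h2 h3
  have e3 : thetaThree t ^ 2 = (thetaThree (t / 2) ^ 2 + thetaFour (t / 2) ^ 2) / 2 := by linarith
  have e2 : thetaTwo t ^ 2 = (thetaThree (t / 2) ^ 2 - thetaFour (t / 2) ^ 2) / 2 := by linarith
  rw [show thetaTwo t ^ 4 = (thetaTwo t ^ 2) ^ 2 by ring,
    show thetaFour t ^ 4 = (thetaFour t ^ 2) ^ 2 by ring,
    show thetaThree t ^ 4 = (thetaThree t ^ 2) ^ 2 by ring, e2, e3, ← h3]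
  ring

/-! ### The complex theta function -/

theorem thetaThree_eq (t : ℝ) :
    (thetaThree t : ℂ) = jacobiTheta ((t : ℂ) * Complex.I) := by
  rw [thetaThree, jacobiTheta, Complex.ofReal_tsum]
  refine tsum_congr fun n => ?_
  rw [Complex.ofReal_exp]
  congr 1
  push_cast
  linear_combination (-(π : ℂ) * t * (n : ℂ) ^ 2) * Complex.I_mul_I

theorem thetaFour_eq (t : ℝ) :
    (thetaFour t : ℂ) = jacobiTheta ((t : ℂ) * Complex.I + 1) := by
  rw [thetaFour, jacobiTheta, Complex.ofReal_tsum]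
  refine tsum_congr fun n => ?_
  rw [show π * Complex.I * (n : ℂ) ^ 2 * ((t : ℂ) * Complex.I + 1) =
      ((-π * t * (n : ℝ) ^ 2 : ℝ) : ℂ) + ((n ^ 2 : ℤ) : ℂ) * (π * Complex.I) by
    push_cast
    linear_combination ((π : ℂ) * t * (n : ℂ) ^ 2) * Complex.I_mul_I,
    Complex.exp_add, Complex.exp_int_mul, Complex.exp_pi_mul_I]
  have : (-1 : ℂ) ^ (n ^ 2) = (-1) ^ n := by
    rw [sq, zpow_mul]
    rcases Int.even_or_odd n with h | h
    · rw [h.neg_one_zpow, one_zpow]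
    · rw [h.neg_one_zpow, h.neg_one_zpow]
  rw [this]
  push_cast
  ring

/-- The inversion. -/
theorem sq_thetaThree_inv {t : ℝ} (ht : 0 < t) :
    thetaThree t⁻¹ ^ 2 = t * thetaThree t ^ 2 := by
  refine Complex.ofReal_injective ?_
  push_cast
  rw [thetaThree_eq, thetaThree_eq]
  have h := jacobiTheta_S_smul ⟨(t : ℂ) * Complex.I, by simpa using ht⟩
  rw [UpperHalfPlane.modular_S_smul] at h
  simp only at h
  have e : (-((t : ℂ) * Complex.I))⁻¹ = (t⁻¹ : ℝ) * Complex.I := by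
    rw [inv_neg, mul_inv, Complex.inv_I]
    push_cast
    ring
  rw [e, show -Complex.I * ((t : ℂ) * Complex.I) = (t : ℂ) by
    linear_combination (-(t : ℂ)) * Complex.I_mul_I] at h
  have hc : ((t : ℂ) ^ (1 / 2 : ℂ)) ^ 2 = t := by
    rw [one_div]; exact Complex.cpow_nat_inv_pow _ two_ne_zero
  rw [h, mul_pow, hc]

end FA.ThetaAGM

end
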