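import Fermat.Agent.RealPoints.Rectangular
import Fermat.Agent.ThetaAGM.Mean
import Fermat.Agent.Mazur.Wp.Curve

/-!
# Jacobi: `E₄`, `E₆` and `Δ` in theta constants on the imaginary axis

The lattice with roots `e₃ - e₁ = 1`, `e₂ - e₁ = θ₂⁴/θ₃⁴` is `π θ₃² (ℤ + i t ℤ)`.
-/

set_option autoImplicit false
set_option linter.style.haveILetI false

noncomputable section

open Complex (I)
open ModularForm
open FA.Mazur.Wp (latPair mem_latPair g₂_latPair g₃_latPair tpi)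
open scoped Real NNReal

namespace FA.ThetaAGM

/-- The point `i t`. -/
def imPt (t : ℝ) (ht : 0 < t) : UpperHalfPlane := ⟨(t : ℂ) * I, by simpa using ht⟩

theorem coe_imPt {t : ℝ} (ht : 0 < t) : ((imPt t ht : UpperHalfPlane) : ℂ) = (t : ℂ) * I := rfl

theorem invariants_imPt {t : ℝ} (ht : 0 < t) :
    E₄ (imPt t ht) =
      (((thetaTwo t ^ 8 + thetaThree t ^ 8 + thetaFour t ^ 8) / 2 : ℝ) : ℂ) ∧
    E₆ (imPt t ht) =
      (((thetaTwo t ^ 4 + thetaThree t ^ 4) * (thetaThree t ^ 4 + thetaFour t ^ 4) *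
        (thetaFour t ^ 4 - thetaTwo t ^ 4) / 2 : ℝ) : ℂ) := by
  have h3 := thetaThree_pos ht
  have h4 := thetaFour_pos ht
  have h2 := thetaTwo_pos ht
  have hq := quartic ht
  set μ : ℝ := thetaFour t ^ 4 / thetaThree t ^ 4 with hμ
  have hμ0 : 0 < μ := by positivity
  have hμ1 : μ < 1 := (div_lt_one (by positivity)).mpr (by linarith [pow_pos h2 4])
  set e₁ : ℝ := (μ - 2) / 3 with he₁
  set e₂ : ℝ := (1 - 2 * μ) / 3 with he₂
  set e₃ : ℝ := (1 + μ) / 3 with he₃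
  have h12 : e₁ < e₂ := by rw [he₁, he₂]; linarith
  have h23 : e₂ < e₃ := by rw [he₂, he₃]; linarith
  have h0 : e₁ + e₂ + e₃ = 0 := by rw [he₁, he₂, he₃]; ring
  have hdisc : ((-4 * (e₁ * e₂ + e₁ * e₃ + e₂ * e₃) : ℝ) : ℂ) ^ 3 -
      27 * ((4 * (e₁ * e₂ * e₃) : ℝ) : ℂ) ^ 2 ≠ 0 := by
    have e : e₃ = -e₁ - e₂ := by linarith
    have hpos : 0 < 16 * ((e₂ - e₁) * (e₃ - e₁) * (e₃ - e₂)) ^ 2 :=
      mul_pos (by norm_num) (pow_pos (mul_pos (mul_pos (by linarith) (by linarith))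
        (by linarith)) 2)
    have hd : (-4 * (e₁ * e₂ + e₁ * e₃ + e₂ * e₃)) ^ 3 - 27 * (4 * (e₁ * e₂ * e₃)) ^ 2 =
        16 * ((e₂ - e₁) * (e₃ - e₁) * (e₃ - e₂)) ^ 2 := by rw [e]; ring
    exact_mod_cast (hd.trans_ne hpos.ne')
  obtain ⟨L, hg2, hg3⟩ := FA.JInj.exists_g₂_g₃ hdisc
  obtain ⟨ω, hω, hper, hωv⟩ := FA.Summary.realPeriod_agm L h12 h23 h0 hg2 hg3
  obtain ⟨ω', hω', hper', hωv'⟩ := FA.Summary.realPeriod_agm
    (FA.JInj.scalePair L I Complex.I_ne_zero) (e₁ := -e₃) (e₂ := -e₂) (e₃ := -e₁) (by linarith)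
    (by linarith) (by linarith)
    (by rw [FA.JInj.g₂_scalePair, Complex.I_pow_four, inv_one, one_mul, hg2]; push_cast; ring)
    (by rw [FA.JInj.g₃_scalePair, show I ^ 6 = (I ^ 2) ^ 3 by ring, Complex.I_sq, hg3]
        push_cast; ring)
  have eb : √(e₃ - e₂) = thetaFour t ^ 2 / thetaThree t ^ 2 := by
    rw [show e₃ - e₂ = (thetaFour t ^ 2 / thetaThree t ^ 2) ^ 2 by
      rw [he₂, he₃, hμ]; field_simp; ring, Real.sqrt_sq (by positivity)]
  have ec : √(e₂ - e₁) = thetaTwo t ^ 2 / thetaThree t ^ 2 := by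
    rw [show e₂ - e₁ = (thetaTwo t ^ 2 / thetaThree t ^ 2) ^ 2 by
      rw [he₂, he₁, hμ]; field_simp; linear_combination (-3 : ℝ) * hq,
      Real.sqrt_sq (by positivity)]
  have ea : √(e₃ - e₁) = 1 := by rw [show e₃ - e₁ = 1 by rw [he₁, he₃]; ring, Real.sqrt_one]
  obtain ⟨hM, hN⟩ := param_unique (a := 1) one_pos ht (b := thetaFour t ^ 2 / thetaThree t ^ 2)
    (div_one _).symm
  rw [ea, eb, Real.toNNReal_one] at hωv
  rw [neg_sub_neg, neg_sub_neg, ea, ec, Real.toNNReal_one] at hωv'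
  have hsq : √(1 ^ 2 - (thetaFour t ^ 2 / thetaThree t ^ 2) ^ 2) =
      thetaTwo t ^ 2 / thetaThree t ^ 2 := by
    rw [show (1 : ℝ) ^ 2 - (thetaFour t ^ 2 / thetaThree t ^ 2) ^ 2 =
      (thetaTwo t ^ 2 / thetaThree t ^ 2) ^ 2 by field_simp; linear_combination -hq,
      Real.sqrt_sq (by positivity)]
  rw [hsq, Real.toNNReal_one] at hN
  rw [Real.toNNReal_one] at hM
  have hω1 : ω = π * thetaThree t ^ 2 := by rw [hωv, hM]; field_simp
  have hω2 : ω' = ω * t := by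
    have hne : (NNReal.agm 1 (thetaTwo t ^ 2 / thetaThree t ^ 2).toNNReal : ℝ) ≠ 0 := by
      intro h
      rw [h, div_zero] at hN
      exact ht.ne' hN
    have hN' := (eq_div_iff hne).mp hN
    rw [hωv', hωv]
    have hne' : (NNReal.agm 1 (thetaFour t ^ 2 / thetaThree t ^ 2).toNNReal : ℝ) ≠ 0 := by
      rw [hM]; positivity
    field_simp
    linear_combination -hN'
  have hωc : (ω : ℂ) ≠ 0 := Complex.ofReal_ne_zero.mpr hω.ne'
  have hl : (FA.JInj.scalePair (latPair (imPt t ht)) (ω : ℂ) hωc).lattice = L.lattice := by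
    ext z
    rw [FA.RealPoints.mem_lattice_rectangular L h12 h23 h0 hg2 hg3 hω hper hω' hper',
      FA.JInj.mem_scalePair]
    constructor
    · rintro ⟨y, hy, rfl⟩
      obtain ⟨m, n, rfl⟩ := mem_latPair.mp hy
      refine ⟨(n, m), ?_⟩
      rw [hω2, coe_imPt]
      push_cast
      ring
    · rintro ⟨p, rfl⟩
      refine ⟨_, mem_latPair.mpr ⟨p.2, p.1, rfl⟩, ?_⟩
      rw [hω2, coe_imPt]
      push_cast
      ring
  obtain ⟨k2, k3⟩ := (FA.JInj.lattice_eq_iff _ _).mp hl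
  rw [FA.JInj.g₂_scalePair, g₂_latPair, hg2, inv_mul_eq_iff_eq_mul₀ (pow_ne_zero 4 hωc), tpi,
    mul_pow, mul_pow, Complex.I_pow_four] at k2
  rw [FA.JInj.g₃_scalePair, g₃_latPair, hg3, inv_mul_eq_iff_eq_mul₀ (pow_ne_zero 6 hωc), tpi,
    mul_pow, mul_pow, show I ^ 6 = (I ^ 2) ^ 3 by ring, Complex.I_sq] at k3
  have hπ : (π : ℂ) ≠ 0 := Complex.ofReal_ne_zero.mpr Real.pi_ne_zero
  constructor
  · have key : 3 / 4 * (-4 * (e₁ * e₂ + e₁ * e₃ + e₂ * e₃)) * thetaThree t ^ 8 =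
        (thetaTwo t ^ 8 + thetaThree t ^ 8 + thetaFour t ^ 8) / 2 := by
      have e28 : thetaTwo t ^ 8 = (thetaThree t ^ 4 - thetaFour t ^ 4) ^ 2 := by
        linear_combination (thetaTwo t ^ 4 + thetaThree t ^ 4 - thetaFour t ^ 4) * hq
      rw [e28, he₁, he₂, he₃, hμ]
      field_simp
      ring
    rw [← key]
    rw [hω1] at k2
    push_cast at k2 ⊢
    field_simp at k2 ⊢
    linear_combination (1 / 16 : ℂ) * k2
  · have key : 27 / 8 * (4 * (e₁ * e₂ * e₃)) * thetaThree t ^ 12 =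
        (thetaTwo t ^ 4 + thetaThree t ^ 4) * (thetaThree t ^ 4 + thetaFour t ^ 4) *
          (thetaFour t ^ 4 - thetaTwo t ^ 4) / 2 := by
      rw [show thetaTwo t ^ 4 = thetaThree t ^ 4 - thetaFour t ^ 4 by linarith, he₁, he₂, he₃, hμ]
      field_simp
      ring
    rw [← key]
    rw [hω1] at k3
    push_cast at k3 ⊢
    field_simp at k3 ⊢
    linear_combination (1 / 8 : ℂ) * k3

theorem discriminant_imPt {t : ℝ} (ht : 0 < t) :
    ModularForm.discriminant (imPt t ht) =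
      (((thetaTwo t * thetaThree t * thetaFour t) ^ 8 / 256 : ℝ) : ℂ) := by
  obtain ⟨h4, h6⟩ := invariants_imPt ht
  rw [discriminant_eq_E₄_cube_sub_E₆_sq, h4, h6]
  have h := quartic ht
  have key : ((thetaTwo t ^ 8 + thetaThree t ^ 8 + thetaFour t ^ 8) / 2) ^ 3 -
      ((thetaTwo t ^ 4 + thetaThree t ^ 4) * (thetaThree t ^ 4 + thetaFour t ^ 4) *
        (thetaFour t ^ 4 - thetaTwo t ^ 4) / 2) ^ 2 =
      27 / 4 * (thetaTwo t * thetaThree t * thetaFour t) ^ 8 := by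
    rw [show thetaTwo t ^ 8 = (thetaTwo t ^ 4) ^ 2 by ring,
      show thetaFour t ^ 8 = (thetaFour t ^ 4) ^ 2 by ring,
      show (thetaTwo t * thetaThree t * thetaFour t) ^ 8 =
        (thetaTwo t ^ 4) ^ 2 * thetaThree t ^ 8 * (thetaFour t ^ 4) ^ 2 by ring,
      show thetaTwo t ^ 4 = thetaThree t ^ 4 - thetaFour t ^ 4 by linarith]
    ring
  rw [← Complex.ofReal_pow, ← Complex.ofReal_pow, ← Complex.ofReal_sub, key]
  push_cast
  ring

/-- `j = 256 (1 - λ + λ²)³ / (λ² (1 - λ)²)`. -/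
theorem jfun_imPt {t : ℝ} (ht : 0 < t) {l : ℝ} (hl : l = thetaTwo t ^ 4 / thetaThree t ^ 4) :
    FA.ModField.jfun (imPt t ht) =
      ((256 * (1 - l + l ^ 2) ^ 3 / (l ^ 2 * (1 - l) ^ 2) : ℝ) : ℂ) := by
  rw [FA.ModField.jfun, (invariants_imPt ht).1, discriminant_imPt ht, ← Complex.ofReal_pow,
    ← Complex.ofReal_div]
  congr 1
  have h3 := thetaThree_pos ht
  have h4 := thetaFour_pos ht
  have h2 := thetaTwo_pos ht
  have e : 1 - l = thetaFour t ^ 4 / thetaThree t ^ 4 := by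
    rw [hl]; field_simp; linarith [quartic ht]
  have e' : 1 - l + l ^ 2 =
      (thetaTwo t ^ 8 + thetaThree t ^ 8 + thetaFour t ^ 8) / (2 * thetaThree t ^ 8) := by
    rw [e, hl]
    field_simp
    linear_combination (thetaTwo t ^ 4 - thetaFour t ^ 4 + thetaThree t ^ 4) * quartic ht
  rw [e', e, hl]
  field_simp

end FA.ThetaAGM

end
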