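import Fermat.Agent.ThetaAGM.Jacobi
import Fermat.Agent.GaussLegendre.Series
import Fermat.Agent.ModularValues.EtaReal

/-!
# The derivative of the modulus along the imaginary axis

`θ₄ = η(τ/2)²/η(τ)`, `θ₂ = 2 η(2τ)²/η(τ)`, so `(log (λ/(1-λ)))' = - π (4 E₂(4τ) - E₂(τ))/3`,
that is `λ' = - π λ (1 - λ) θ₃⁴` for `λ = θ₂⁴/θ₃⁴`.
-/

set_option autoImplicit false
set_option linter.style.haveILetI false

noncomputable section

open Complex (I)
open ModularForm Set MeasureTheory
open FA.GaussLegendre (axisE axisPt)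
open scoped Real

namespace FA.ThetaAGM

/-- `η(i s)`. -/
def etaAxis (s : ℝ) : ℝ :=
  Real.exp (-(π * s / 12)) * FA.ModularValues.realEtaProd (Real.exp (-(2 * π * s)))

theorem eta_axis {s : ℝ} (hs : 0 < s) : η ((s : ℂ) * I) = (etaAxis s : ℂ) := by
  have hq : |Real.exp (-(2 * π * s))| < 1 := by
    rw [abs_of_pos (Real.exp_pos _), Real.exp_lt_one_iff]
    have := mul_pos Real.two_pi_pos hs
    linarith
  rw [FA.ModularValues.eta_of_real_q (q := Real.exp (-(2 * π * s))) ?_ hq, etaAxis]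
  · push_cast
    congr 2
    linear_combination ((π : ℂ) * s / 12) * Complex.I_mul_I
  · push_cast
    congr 1
    linear_combination (2 * (π : ℂ) * s) * Complex.I_mul_I

theorem etaAxis_pos {s : ℝ} (hs : 0 < s) : 0 < etaAxis s := by
  have h : η ((s : ℂ) * I) ≠ 0 :=
    eta_ne_zero (by simpa [UpperHalfPlane.upperHalfPlaneSet] using hs)
  rw [eta_axis hs, Complex.ofReal_ne_zero] at h
  refine lt_of_le_of_ne (mul_nonneg (Real.exp_pos _).le (FA.ModularValues.realEtaProd_nonneg ?_))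
    (Ne.symm h)
  rw [abs_of_pos (Real.exp_pos _), Real.exp_lt_one_iff]
  have := mul_pos Real.two_pi_pos hs
  linarith

theorem etaAxis_inv {s : ℝ} (hs : 0 < s) : etaAxis s⁻¹ ^ 2 = s * etaAxis s ^ 2 := by
  refine Complex.ofReal_injective ?_
  push_cast
  rw [← eta_axis (inv_pos.mpr hs), ← eta_axis hs,
    show (((s⁻¹ : ℝ) : ℂ)) * I = -1 / ((s : ℂ) * I) by
      push_cast
      rw [neg_div, one_div, mul_inv, Complex.inv_I]
      ring,
    FA.CM.eta_S_sq (by simpa using hs)]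
  linear_combination (-(s : ℂ) * η ((s : ℂ) * I) ^ 2) * Complex.I_mul_I

theorem hasDerivAt_etaAxis {s : ℝ} (hs : 0 < s) :
    HasDerivAt etaAxis (-(π / 12) * axisE (2 * s) * etaAxis s) s := by
  set τ : UpperHalfPlane := imPt s hs
  have hd := (differentiableAt_eta_of_mem_upperHalfPlaneSet (z := (τ : ℂ))
    τ.im_pos).hasDerivAt
  have hl : deriv η (τ : ℂ) = (π * I / 12) * EisensteinSeries.E2 τ * η (τ : ℂ) := by
    rw [← ModularForm.logDeriv_eta_eq_E2, logDeriv_apply,
      div_mul_cancel₀ _ (eta_ne_zero τ.im_pos)]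
  have hE : EisensteinSeries.E2 τ = (axisE (2 * s) : ℂ) := by
    rw [← FA.GaussLegendre.E2_axisPt (mul_pos two_pos hs)]
    congr 1
    ext
    show (s : ℂ) * I = (((2 * s : ℝ) : ℂ) / 2) * I
    push_cast
    ring
  rw [hl, hE, coe_imPt hs, eta_axis hs] at hd
  have h := (hd.comp (s : ℂ) ((hasDerivAt_id (s : ℂ)).mul_const I)).real_of_complex
  refine (h.congr_of_eventuallyEq ?_).congr_deriv ?_
  · filter_upwards [lt_mem_nhds hs] with u hu
    simp [eta_axis hu]
  · simp

theorem thetaFour_eq_eta {s : ℝ} (hs : 0 < s) :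
    thetaFour s = etaAxis (s / 2) ^ 2 / etaAxis s := by
  rw [eq_div_iff (etaAxis_pos hs).ne']
  refine Complex.ofReal_injective ?_
  push_cast
  rw [← eta_axis hs, ← eta_axis (half_pos hs), thetaFour_eq,
    show (((s / 2 : ℝ) : ℂ)) * I = ((1 / 2 : ℝ) : ℂ) * ((s : ℂ) * I) by push_cast; ring,
    ← FA.CM.qSum_four_eq (by simpa using hs)]
  congr 1
  rw [show (s : ℂ) * I + 1 = 2 + ((s : ℂ) * I - 1) by ring, jacobiTheta_two_add,
    FA.ModularValues.jacobiTheta_eq_altA, sub_add_cancel]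

theorem thetaTwo_eq_eta {s : ℝ} (hs : 0 < s) :
    thetaTwo s = 2 * etaAxis (2 * s) ^ 2 / etaAxis s := by
  have h1 := etaAxis_pos hs
  have h2 := etaAxis_pos (mul_pos two_pos hs)
  refine (pow_left_inj₀ (thetaTwo_pos hs).le (by positivity) two_ne_zero).mp ?_
  have h := sq_thetaFour_inv hs
  rw [thetaFour_eq_eta (inv_pos.mpr hs), show s⁻¹ / 2 = (2 * s)⁻¹ by ring, div_pow, ← pow_mul,
    show 2 * 2 = 2 * 2 from rfl, pow_mul, etaAxis_inv hs, etaAxis_inv (mul_pos two_pos hs)] at h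
  rw [div_pow]
  field_simp at h ⊢
  linear_combination -h

/-- `θ₂ θ₃ θ₄ = 2 η³`. -/
theorem theta_product {s : ℝ} (hs : 0 < s) :
    thetaTwo s * thetaThree s * thetaFour s = 2 * etaAxis s ^ 3 := by
  have h : (η ((s : ℂ) * I)) ^ 24 =
      (((thetaTwo s * thetaThree s * thetaFour s) ^ 8 / 256 : ℝ) : ℂ) := discriminant_imPt hs
  rw [eta_axis hs, ← Complex.ofReal_pow, Complex.ofReal_inj] at h
  refine (pow_left_inj₀
    (mul_nonneg (mul_nonneg (thetaTwo_pos hs).le (thetaThree_pos hs).le) (thetaFour_pos hs).le)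
    (mul_nonneg zero_le_two (pow_nonneg (etaAxis_pos hs).le 3))
    (show (8 : ℕ) ≠ 0 by norm_num)).mp ?_
  linear_combination -256 * h

/-- `λ = θ₂⁴/θ₃⁴`. -/
def lambdaAxis (s : ℝ) : ℝ := thetaTwo s ^ 4 / thetaThree s ^ 4

theorem one_sub_lambdaAxis {s : ℝ} (hs : 0 < s) :
    1 - lambdaAxis s = thetaFour s ^ 4 / thetaThree s ^ 4 := by
  have h3 := thetaThree_pos hs
  rw [lambdaAxis]
  field_simp
  linarith [quartic hs]

theorem lambdaAxis_mem {s : ℝ} (hs : 0 < s) : lambdaAxis s ∈ Ioo (0 : ℝ) 1 := by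
  have h3 := thetaThree_pos hs
  have h4 := thetaFour_pos hs
  refine ⟨div_pos (pow_pos (thetaTwo_pos hs) 4) (pow_pos h3 4), sub_pos.mp ?_⟩
  rw [one_sub_lambdaAxis hs]
  positivity

/-- **The derivative of the modulus**: `λ' = - π λ (1 - λ) θ₃⁴`. -/
theorem hasDerivAt_lambdaAxis {s : ℝ} (hs : 0 < s) :
    HasDerivAt lambdaAxis
      (-(π * lambdaAxis s * (1 - lambdaAxis s) * thetaThree s ^ 4)) s := by
  set R : ℝ → ℝ := fun u => 16 * (etaAxis (2 * u) / etaAxis (u / 2)) ^ 8 with hR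
  have hRθ : ∀ {u : ℝ}, 0 < u → R u = thetaTwo u ^ 4 / thetaFour u ^ 4 := fun {u} hu => by
    simp only [hR, thetaTwo_eq_eta hu, thetaFour_eq_eta hu]
    have := etaAxis_pos hu
    have := etaAxis_pos (half_pos hu)
    field_simp
    ring
  have hlam : ∀ {u : ℝ}, 0 < u → lambdaAxis u = R u / (1 + R u) := fun {u} hu => by
    rw [hRθ hu, lambdaAxis, ← quartic hu]
    have := thetaFour_pos hu
    have := thetaTwo_pos hu
    field_simp
    ring
  have hA := (hasDerivAt_etaAxis (mul_pos two_pos hs)).comp s ((hasDerivAt_id s).const_mul 2)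
  have hB := (hasDerivAt_etaAxis (half_pos hs)).comp s ((hasDerivAt_id s).div_const 2)
  have hB0 := etaAxis_pos (half_pos hs)
  have hRd : HasDerivAt R (-(π * thetaThree s ^ 4 * R s)) s := by
    refine (((hA.div hB hB0.ne').pow 8).const_mul 16).congr_deriv ?_
    have g := FA.GaussLegendre.three_thetaThree_pow hs
    simp only [hR, Function.comp_apply, id_eq, mul_one, Pi.div_apply]
    rw [show 2 * (2 * s) = 4 * s by ring, show 2 * (s / 2) = s by ring,
      show thetaThree s ^ 4 = (4 * axisE (4 * s) - axisE s) / 3 by linarith]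
    generalize etaAxis (s / 2) = b at hB0 ⊢
    generalize etaAxis (2 * s) = a
    have hb := hB0.ne'
    simp only [div_pow]
    field_simp
    ring
  have hR0 : 0 < R s := by
    have := etaAxis_pos (mul_pos two_pos hs)
    simp only [hR]
    positivity
  have h := hRd.div ((hasDerivAt_const s (1 : ℝ)).add hRd)
    (by simp only [Pi.add_apply]; exact (add_pos one_pos hR0).ne')
  refine (h.congr_of_eventuallyEq ?_).congr_deriv ?_
  · filter_upwards [lt_mem_nhds hs] with u hu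
    exact hlam hu
  · rw [hlam hs]
    simp only [Pi.add_apply]
    field_simp
    ring

theorem strictAntiOn_lambdaAxis : StrictAntiOn lambdaAxis (Ioi 0) := by
  refine strictAntiOn_of_deriv_neg (convex_Ioi 0)
    (fun s hs => (hasDerivAt_lambdaAxis hs).continuousAt.continuousWithinAt) fun s hs => ?_
  rw [interior_Ioi] at hs
  rw [(hasDerivAt_lambdaAxis hs).deriv, neg_neg_iff_pos]
  have := lambdaAxis_mem hs
  exact mul_pos (mul_pos (mul_pos Real.pi_pos this.1) (sub_pos.mpr this.2))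
    (pow_pos (thetaThree_pos hs) 4)

theorem image_lambdaAxis : lambdaAxis '' Ioi 0 = Ioo 0 1 := by
  refine Subset.antisymm (by rintro _ ⟨s, hs, rfl⟩; exact lambdaAxis_mem hs) fun l hl => ?_
  obtain ⟨t, ht, he⟩ := exists_param (x := √(1 - l))
    (Real.sqrt_pos.mpr (sub_pos.mpr hl.2))
    (by rw [Real.sqrt_lt' one_pos]; linarith [hl.1])
  refine ⟨t, ht, sub_right_injective (G := ℝ) (b := 1) ?_⟩
  show 1 - lambdaAxis t = 1 - l
  rw [one_sub_lambdaAxis ht, div_eq_iff (pow_ne_zero 4 (thetaThree_pos ht).ne'),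
    show thetaFour t ^ 4 = (thetaFour t ^ 2) ^ 2 by ring, he, mul_pow,
    Real.sq_sqrt (sub_pos.mpr hl.2).le]
  ring

/-- The integral of `θ₂² θ₃ θ₄` as a Beta value. -/
theorem integral_theta_product :
    ∫ s in Ioi (0 : ℝ), thetaTwo s ^ 2 * thetaThree s * thetaFour s =
      Real.Gamma (1 / 2) * Real.Gamma (1 / 4) / Real.Gamma (3 / 4) / π := by
  have h := integral_image_eq_integral_abs_deriv_smul measurableSet_Ioi
    (fun s hs => (hasDerivAt_lambdaAxis hs).hasDerivWithinAt) strictAntiOn_lambdaAxis.injOn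
    (fun l : ℝ => π⁻¹ * (l ^ ((1 / 2 : ℝ) - 1) * (1 - l) ^ ((1 / 4 : ℝ) - 1)))
  rw [image_lambdaAxis, integral_const_mul,
    FA.RealPoints.integral_beta (by norm_num) (by norm_num)] at h
  norm_num at h
  rw [div_eq_mul_inv _ π, mul_comm _ π⁻¹]
  refine Eq.trans ?_ h.symm
  refine setIntegral_congr_fun measurableSet_Ioi fun s (hs : 0 < s) => ?_
  obtain ⟨hl0, hl1⟩ := lambdaAxis_mem hs
  have h2 := thetaTwo_pos hs
  have h3 := thetaThree_pos hs
  have h4 := thetaFour_pos hs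
  rw [abs_of_pos hl0, abs_of_pos (sub_pos.mpr hl1), abs_of_pos Real.pi_pos,
    abs_of_pos h3]
  have e1 : lambdaAxis s * lambdaAxis s ^ (-(1 / 2) : ℝ) = thetaTwo s ^ 2 / thetaThree s ^ 2 := by
    rw [mul_comm, ← Real.rpow_add_one hl0.ne', show -(1 / 2 : ℝ) + 1 = 1 / 2 by norm_num,
      ← Real.sqrt_eq_rpow, lambdaAxis, show thetaTwo s ^ 4 / thetaThree s ^ 4 =
      (thetaTwo s ^ 2 / thetaThree s ^ 2) ^ 2 by ring, Real.sqrt_sq (by positivity)]
  have e2 : (1 - lambdaAxis s) * (1 - lambdaAxis s) ^ (-(3 / 4) : ℝ) =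
      thetaFour s / thetaThree s := by
    rw [mul_comm, ← Real.rpow_add_one (sub_pos.mpr hl1).ne',
      show -(3 / 4 : ℝ) + 1 = ((4 : ℕ) : ℝ)⁻¹ by norm_num, one_sub_lambdaAxis hs, ← div_pow,
      Real.pow_rpow_inv_natCast (by positivity) (by norm_num)]
  calc thetaTwo s ^ 2 * thetaThree s * thetaFour s
      = thetaThree s ^ 4 * (thetaTwo s ^ 2 / thetaThree s ^ 2) * (thetaFour s / thetaThree s) := by
        field_simp
    _ = _ := by
        rw [← e1, ← e2]
        field_simp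

end FA.ThetaAGM

end
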